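import Mathlib
import Fermat.Agent.LT.T7.H801.BaseQCutSpec

/-!
# Row LT, tower T7, node T7.L2Q.1.H2a.A `CQ801.PairAQC801` (sub-architect helper484, registry
# row 2855): THIRD CUT over `ℚ` -- Spec

OFF-MAIN.  Definitions and frozen Props only (the proved top is `PairAQTop.lean`).  No hole,
nothing assumed.  ADDITIVE (new names only, all suffixed `484`, namespace
`Fermat.Agent.LT.T7.PQ484`).  Vocabulary: the second cut of helper801
(`T7/H801/BaseQCutSpec.lean` 7e08115d: `IsPairAQ801`, `PairAQC801`), byte-identical copy.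

MIRROR over `ℚ` (quadratic step, `F = ℚ(√-3)`, `ℓ = 2`, TWO `K_∞`-types `w0`, `w1` downstairs)
of the second cut of helper981 of the cubic node `Q797.PairAC797`
(`T7/B981/PairASpec.lean` 54ea7f02: `IsGoodA981`, `IsStepA981`, `IsDnStab981`, `BaseAC981`,
`StepTC981`, `StepSC981`, `StepMC981`).

    pairAQC_of484 : BaseAQC484 P F → StepTQC484 F → StepSQC484 F → StepMQC484 F
                      → CQ801.PairAQC801 P F                                    (VERBATIM)

## The cut: INDUCTION ON THE WORD

The fields of `CQ801.IsPairAQ801` are of two kinds.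

* **Word-free** (`IsGoodAQ484 φ f`, for ONE triple `φ` over `F`, `f w0`, `f w1` over `ℚ`): test
  functions of the levels and of the types, Eisenstein-killing with Eisenstein-killing adjoints,
  the supports, the local shape `IsAvgPureQ801 … (LocAQ801 c …) 1 φ (f w0) (f w1)`.
* **Operators**: `R(Φ₁ X) χ = X(C) c₁(C) χ` upstairs, `R(F₁ t X) χ = X(C) R(F₁ t []) χ`
  downstairs (`C` the base change of the eigen-data `c` of `χ`, `IsBCDataQ t c C S`), and the
  three fields on `F₁ t []` (`IsDnStabQ484`).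

So `Φ₁ (x :: X)`, `F₁ t (x :: X)` are obtained from `Φ₁ X`, `F₁ t X` by ONE STEP which
multiplies the operators by `x(C)` and preserves `IsGoodAQ484`:

* **`BaseAQC484 P F`** (NODE; the empty word): the Eisenstein-killing triple with the scalar
  `c₁` (T3.18M explicit form upstairs, T3.18R downstairs, Abel relation `c`).
* **`StepTQC484 F`** (`x = T_w`, `w ∉ S'`), **`StepSQC484 F`** (`x = S_w^{± 1}`): the steps at
  the finite places: PORTS of `B981.StepTC981`, `B981.StepSC981` with `ℓ = 2` (the same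
  function downstairs for the two types: only the finite components change).
* **`StepMQC484 F`** (`x = M_{w,d}`, `w` the complex place of `F`, `d > 0`): the ONLY step which
  is not a port: the real place does not split.

## The steps (constructions; FALSITY CHECKS of helper484)

Finite places: as in the header of `B981/PairASpec.lean` (`φ' = φ ⋆ Θ_x`, `f' t = f t ⋆ b(Θ_x)`,
`b` the base change of the spherical Hecke algebra: Satake transform `x² + y²`, `(x y)^{± 2}` at
a place with ONE place of residue degree `2` over it, the same element at a split place; the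
ramified prime `3` is in `S`, so no generator lives over it).  `IsBCDataQ t c C S`:
`C.a w = satakePow f (c.a v) (c.b v)`, `C.b w = (c.b v)^f` for `p ∉ S`.

Infinite place: upstairs `φ'(g) = ∫∫ φ(g Y(α,β)) sin β dα dβ` (sphere mean of radius `d` in the
right variable, as `B981.StepMC981`); the Abel transform (`N`-integral) of every archimedean
component `Φ w` of a member is multiplied (convolution on `ℝ²`) by the Abel transform `ν_d` of
the sphere measure, a finite positive symmetric measure with compact support; a symmetric bump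
`β'` goes to the symmetric bump `β' ⋆ ν_d`.  Downstairs `f' t` = the average of the pure
tensors with THE SAME finite components and with archimedean components `F0'`, `F1'` of weight
`0`, `-1` whose `N`-integral is `halfQ801 c (β' ⋆ ν_d)`
(`= (halfQ801 c β') ⋆ (push-forward of ν_d under x ↦ 2 x)`): the right convolution of `F0`, `F1`
with the bi-`SO(2)`-equivariant measure of weight `0`, `-1` on `GL₂(ℝ)` whose Abel transform is
the push-forward of `ν_d` (base change `ℂ / ℝ` of the sphere measure; `T6.ArchMatchC` (b)).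
On an eigenfunction `χ` of type `t` with `c.m = 2π · sphRad t.wt s ∘ cosh` the operator of a
test function of type `t` is its spherical transform at `s`, i.e. the Fourier–Laplace transform
of its Abel transform; the one of `ν_d` pushed forward is `4π · sphC (2 s) (cosh d) = C.m w d`
(`IsBCDataQ`, second clause).  So `R(f' t) χ = x(C) R(f t) χ`; NO property of `R(f t) χ` is
used.  (a) The step relation is asked for the eigenfunctions `χ` only (as in the cubic cut).
(b) The constant `c` of the Abel relation is PRESERVED by the three steps (it is a parameter of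
`IsGoodAQ484`): finite steps do not touch the components at infinity; the step `M` multiplies
both `N`-integrals by corresponding measures.  (c) `IsGoodAQ484` does not contain the operator
properties of the base function (`IsDnStabQ484`): they are asked for `F₁ t []` only, in the base
node.  (d) The exponents `n`, `m` and the set `T₀` are those of the level: the steps live
outside `S'` (finite places) or at infinity, so the unit components at the level are unchanged.
(e) Joint continuity of the members in the parameter and the common compact support are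
preserved: the members of the step are right convolutions of the members with ONE fixed
compactly supported measure.
-/

set_option autoImplicit false

open AutomorphicForm IsDedekindDomain NumberField MeasureTheory
open scoped ComplexConjugate

noncomputable section

namespace Fermat.Agent.LT.T7.PQ484

open Fermat.Agent.LT.H556 Fermat.Agent.LT.H556.A0 Fermat.Agent.LT.T7 Fermat.Agent.LT.T7.H305
  Fermat.Agent.LT.T7.L2Q Fermat.Agent.LT.T7.H893 Fermat.Agent.LT.T7.H962
  Fermat.Agent.LT.T7.H732 Fermat.Agent.LT.T7.MQ298 Fermat.Agent.LT.T7.CQ801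

attribute [local instance] Fermat.Agent.LT.T5.instMeasurableSpaceG

/-! ## 1. The word-free properties, the step, the operator of the base function -/

section Vocab

variable {F : Type} [Field F] [NumberField F]

/-- **THE WORD-FREE PROPERTIES** of a triple `(φ, f w0, f w1)` (`φ` over `F`, `f t` over `ℚ` of
type `t`): the fields `up1_test`, `up1_ek`, `dn1_test`, `dn1_ek`, `up1_supp`, `dn1_supp`,
`shape` of `CQ801.IsPairAQ801` for ONE word. -/
structure IsGoodAQ484 (B : L2QBase962 F) (𝔫 : Ideal (𝓞 ℚ)) (c : ℂ)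
    (T₀ : Finset (HeightOneSpectrum (𝓞 ℚ)))
    (n : HeightOneSpectrum (𝓞 F) → ℕ) (m : HeightOneSpectrum (𝓞 ℚ) → ℕ)
    (φ : G F → ℂ) (f : QWt → G ℚ → ℂ) : Prop where
  up_test : T5.IsTestFn (upI (K' := F) 𝔫) T5.trivType φ
  up_ek : T5.IsEK B.R'.μ φ ∧ T5.IsEK B.R'.μ (T5.adjointFn φ)
  dn_test : ∀ t : QWt, T5.IsTestFn 𝔫 t.type (f t)
  dn_ek : ∀ t : QWt, T5.IsEK B.R.μ (f t) ∧ T5.IsEK B.R.μ (T5.adjointFn (f t))
  up_supp : ∃ C : Set (G F), IsCompact C ∧ T5.H32.IsIwSupported32 2 B.o C φ
  dn_supp : ∀ t : QWt,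
    ∃ C : Set (G ℚ), IsCompact C ∧ T5.H32.IsIwSupported32 1 (fun _ => B.u) C (f t)
  shape : IsAvgPureQ801 (upI (K' := F) 𝔫) 𝔫 T₀ (LocAQ801 c T₀ n m) 1
    φ (f QWt.w0) (f QWt.w1)

/-- **THE STEP RELATION**: `(φ', f')` is obtained from `(φ, f)` by the generator `x`: the
operators on the eigenfunctions are multiplied by `x(C)` (downstairs for BOTH types, `C` the
base change of the eigen-data of the eigenfunction). -/
structure IsStepAQ484 (B : L2QBase962 F) (𝔫 : Ideal (𝓞 ℚ)) (x : Gen F)
    (φ : G F → ℂ) (f : QWt → G ℚ → ℂ) (φ' : G F → ℂ) (f' : QWt → G ℚ → ℂ) : Prop where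
  up : ∀ (χ : G F → ℂ) (C : EigData F), IsEigFn B.𝔑₀ B.R'.r 2 B.o χ C →
    ∀ y : G F, T5.Rconv B.R'.μ φ' χ y = x.ev C * T5.Rconv B.R'.μ φ χ y
  dn : ∀ (t : QWt) (χ : G ℚ → ℂ) (c : EigData ℚ) (C : EigData F),
    IsEigFnQ t 𝔫 B.R.r B.u χ c → IsBCDataQ t c C B.S →
    ∀ y : G ℚ, T5.Rconv B.R.μ (f' t) χ y = x.ev C * T5.Rconv B.R.μ (f t) χ y

/-- **THE OPERATORS OF THE BASE FUNCTIONS DOWNSTAIRS**: the fields `dn1_wfn`, `dn1_class`,
`dn1_comm` of `CQ801.IsPairAQ801` for the functions `f t = F₁ t []` (same statements). -/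
structure IsDnStabQ484 (B : L2QBase962 F) (𝔫 : Ideal (𝓞 ℚ)) (f : QWt → G ℚ → ℂ) : Prop where
  wfn : ∀ (t : QWt) (ψ : G ℚ → ℂ), IsWFnQ t 𝔫 B.R.r B.u ψ →
    IsWFnQ t 𝔫 B.R.r B.u (T5.Rconv B.R.μ (f t) ψ)
  cls : ∀ (t : QWt) (ψ : G ℚ → ℂ) (c : EigData ℚ), IsEigFnQ t 𝔫 B.R.r B.u ψ c →
    IsEigFnQ t 𝔫 B.R.r B.u (T5.Rconv B.R.μ (f t) ψ) c
  comm : ∀ (t : QWt) (ψ : G ℚ → ℂ), IsWFnQ t 𝔫 B.R.r B.u ψ →
    ∀ (H : Finset (G ℚ)) (z : G ℚ), IsIwCosetSystem B.u H → IsScalarUniformizerAt B.u z →
      (∀ x : G ℚ, T5.Rconv B.R.μ (f t) (iwOp B.u H ψ) x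
        = iwOp B.u H (T5.Rconv B.R.μ (f t) ψ) x) ∧
      ∀ (k : ℤ) (x : G ℚ), T5.Rconv B.R.μ (f t) (shiftOp z k ψ) x
        = shiftOp z k (T5.Rconv B.R.μ (f t) ψ) x

end Vocab

/-! ## 2. The nodes -/

section Nodes

variable (P : EKCond)
variable (F : Type) [Field F] [NumberField F]

/-- **NODE A.0 over `ℚ` = BASE (the empty word; T3.18M + T3.18R + T6).**  For a common part of
helper60 with `3 ∈ S`, every level with the level properties, the exponents of the level and
every constant `c ≠ 0` of the Abel relation: a scalar `c₁` and ONE triple `(φ, f w0, f w1)` with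
the word-free properties, `R(φ) χ = c₁(C) χ` on the eigenfunctions of the base level upstairs,
`c₁ ≠ 0` on the class of `Φ`, and the three properties of `R(f t)` downstairs.
Of record for `P = T7.ekMulti`.  Construction: docstring of `CQ801.PairAQC801` (empty word);
mirror of `B981.BaseAC981`. -/
def BaseAQC484 : Prop :=
  HasSqrtNegThree F → IsImagQuad F →
    ∀ Φ : HeckeEigensystem F ℂ, A0.IsCuspAdelicSph0 F Φ → ConstOnFibresQ Φ → P F Φ →
      ∀ B : L2Q.H60.L2QBase F, L2Q.H60.IsL2QBase Φ B → L2Q.H60.IsRamQ60 B →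
      ∀ 𝔫 : Ideal (𝓞 ℚ), CQ57.IsLevQ57 (toBase962_732 B) 𝔫 →
      ∀ (T₀ : Finset (HeightOneSpectrum (𝓞 ℚ)))
        (n n₀ : HeightOneSpectrum (𝓞 F) → ℕ) (m : HeightOneSpectrum (𝓞 ℚ) → ℕ),
        CQ57.IsLevFnQ57 (toBase962_732 B) 𝔫 T₀ n n₀ m →
        ∀ c : ℂ, c ≠ 0 →
          ∃ (c₁ : EigData F → ℂ) (φ : G F → ℂ) (f : QWt → G ℚ → ℂ),
            IsGoodAQ484 (toBase962_732 B) 𝔫 c T₀ n m φ f ∧
            (∀ (χ : G F → ℂ) (C : EigData F),
              IsEigFn (toBase962_732 B).𝔑₀ (toBase962_732 B).R'.r 2 (toBase962_732 B).o χ C →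
              ∀ y : G F, T5.Rconv (toBase962_732 B).R'.μ φ χ y = c₁ C * χ y) ∧
            (∀ C : EigData F, C.AgreeOut (toBase962_732 B).S' (eigOf Φ) → c₁ C ≠ 0) ∧
            IsDnStabQ484 (toBase962_732 B) 𝔫 f

/-- The step for the generators `x` which satisfy `Q` (the common form of the three step
nodes). -/
def StepGQC484 (Q : Gen F → Prop) : Prop :=
  HasSqrtNegThree F → IsImagQuad F →
    ∀ (Φ : HeckeEigensystem F ℂ) (B : L2Q.H60.L2QBase F),
      L2Q.H60.IsL2QBase Φ B → L2Q.H60.IsRamQ60 B →
      ∀ 𝔫 : Ideal (𝓞 ℚ), CQ57.IsLevQ57 (toBase962_732 B) 𝔫 →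
      ∀ (T₀ : Finset (HeightOneSpectrum (𝓞 ℚ)))
        (n n₀ : HeightOneSpectrum (𝓞 F) → ℕ) (m : HeightOneSpectrum (𝓞 ℚ) → ℕ),
        CQ57.IsLevFnQ57 (toBase962_732 B) 𝔫 T₀ n n₀ m →
        ∀ c : ℂ, c ≠ 0 →
        ∀ x : Gen F, Q x → x.Out (toBase962_732 B).S' →
        ∀ (φ : G F → ℂ) (f : QWt → G ℚ → ℂ),
          IsGoodAQ484 (toBase962_732 B) 𝔫 c T₀ n m φ f →
          ∃ p : (G F → ℂ) × (QWt → G ℚ → ℂ),
            IsGoodAQ484 (toBase962_732 B) 𝔫 c T₀ n m p.1 p.2 ∧
              IsStepAQ484 (toBase962_732 B) 𝔫 x φ f p.1 p.2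

/-- **NODE A.1 over `ℚ` = STEP-T** (`x = T_w`, `w ∉ S'`).  PORT of `B981.StepTC981`, `ℓ = 2`:
`φ'(g) = q_w^{-1/2} ∑_{h ∈ H} φ(g z⁻¹ h)`, `H` a Hecke coset system at `w`, `z` a scalar
uniformiser at `w`; downstairs, for BOTH types, the base change: `w` the only place over the
prime `v` (residue degree `2`): `f t ⋆` the element of the spherical Hecke algebra at `v` with
Satake transform `x² + y²` (`T6.BCExistsC`); `v` split:
`f' t (g) = q_v^{-1/2} ∑_{h ∈ H_v} f t (g z_v⁻¹ h)`. -/
def StepTQC484 : Prop :=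
  StepGQC484 F fun x => ∃ w : HeightOneSpectrum (𝓞 F), x = Gen.T w

/-- **NODE A.2 over `ℚ` = STEP-S** (`x = S_w` or `x = S_w⁻¹`, `w ∉ S'`).  PORT of
`B981.StepSC981`, `ℓ = 2`: `φ' = φ(· z^{∓ 1})`, `z` a scalar uniformiser at `w`; downstairs, for
BOTH types, `f' t = f t (· z_v^{∓ f})`, `z_v` a scalar uniformiser at the prime `v` under `w`,
`f` the residue degree of `w` (`2` or `1`). -/
def StepSQC484 : Prop :=
  StepGQC484 F fun x => ∃ w : HeightOneSpectrum (𝓞 F), x = Gen.S w ∨ x = Gen.Sinv w

/-- **NODE A.3 over `ℚ` = STEP-M** (`x = M_{w,d}`, `w` the complex place of `F`, `d > 0`).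
Upstairs the sphere mean of radius `d` in the right variable (as `B981.StepMC981`); downstairs,
for the type `t`, the right convolution with the base change `ℂ / ℝ` of the sphere measure: the
bi-`SO(2)`-equivariant measure of weight `t.wt` on `GL₂(ℝ)` whose Abel transform is the
push-forward under `x ↦ 2 x` of the Abel transform of the sphere measure
(spherical transform `4π · sphC (2 s) (cosh d)` at the parameter `s`; `IsBCDataQ`, second
clause).  See the header.  NOT a port. -/
def StepMQC484 : Prop :=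
  StepGQC484 F fun x => ∃ (w : InfinitePlace F) (d : ℝ), x = Gen.M w d

end Nodes

/-! ## Appendix: the equation lemmas of the definitions of this file are realised HERE -/

theorem eqns_realised_pairAQ484 : True := by
  have _h0_0 := @BaseAQC484.eq_1
  have _h0_1 := @BaseAQC484.eq_def
  have _h0_2 := @BaseAQC484.eq_unfold
  have _h1_0 := @StepGQC484.eq_1
  have _h1_1 := @StepGQC484.eq_def
  have _h1_2 := @StepGQC484.eq_unfold
  have _h2_0 := @StepTQC484.eq_1
  have _h2_1 := @StepTQC484.eq_def
  have _h2_2 := @StepTQC484.eq_unfold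
  have _h3_0 := @StepSQC484.eq_1
  have _h3_1 := @StepSQC484.eq_def
  have _h3_2 := @StepSQC484.eq_unfold
  have _h4_0 := @StepMQC484.eq_1
  have _h4_1 := @StepMQC484.eq_def
  have _h4_2 := @StepMQC484.eq_unfold
  trivial

end Fermat.Agent.LT.T7.PQ484

end
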