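import Mathlib
import Fermat.Agent.LT.T7.H484.PairAQSpec

/-!
# Row LT, tower T7, node T7.L2Q.1.H2a.A `CQ801.PairAQC801` (sub-architect helper484, registry
# row 2855): THIRD CUT over `ℚ` -- the PROVED top

OFF-MAIN.  Complete proofs, nothing assumed.  ADDITIVE (new names only, suffix `484`).

    stepAllQ_of484 : StepTQC484 F → StepSQC484 F → StepMQC484 F → StepGQC484 F (fun _ => True)
    pairAQC_of484  : BaseAQC484 P F → StepTQC484 F → StepSQC484 F → StepMQC484 F
                       → CQ801.PairAQC801 P F                                   (VERBATIM)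

Induction on the word (mirror of `B981.pairAC_of981`): `(Φ₁ (x :: X), F₁ · (x :: X))` = the step
of `x` applied to `(Φ₁ X, F₁ · X)` (a choice); `wordEv (x :: X) C = x.ev C * wordEv X C`.
-/

set_option autoImplicit false

open AutomorphicForm IsDedekindDomain NumberField MeasureTheory
open scoped ComplexConjugate

noncomputable section

namespace Fermat.Agent.LT.T7.PQ484

open Fermat.Agent.LT.H556 Fermat.Agent.LT.H556.A0 Fermat.Agent.LT.T7 Fermat.Agent.LT.T7.H305
  Fermat.Agent.LT.T7.L2Q Fermat.Agent.LT.T7.H893 Fermat.Agent.LT.T7.H962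
  Fermat.Agent.LT.T7.H732 Fermat.Agent.LT.T7.MQ298 Fermat.Agent.LT.T7.CQ801

attribute [local instance] Fermat.Agent.LT.T5.instMeasurableSpaceG

variable {P : EKCond}
variable {F : Type} [Field F] [NumberField F]

theorem wordEv_nil484 (C : EigData F) : wordEv ([] : List (Gen F)) C = 1 := by
  show (List.map (fun g : Gen F => g.ev C) []).prod = 1
  rfl

theorem wordEv_cons484 (x : Gen F) (X : List (Gen F)) (C : EigData F) :
    wordEv (x :: X) C = x.ev C * wordEv X C := by
  show (List.map (fun g : Gen F => g.ev C) (x :: X)).prod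
    = x.ev C * (List.map (fun g : Gen F => g.ev C) X).prod
  rw [List.map_cons, List.prod_cons]

/-- The step for every generator from the three step nodes. -/
theorem stepAllQ_of484 (hT : StepTQC484 F) (hS : StepSQC484 F) (hM : StepMQC484 F) :
    StepGQC484 F (fun _ => True) := by
  intro h3 hiq Φ B hB hram 𝔫 hlev T₀ n n₀ m hexp c hc x _ hout φ f hgood
  cases x with
  | T w =>
    exact hT h3 hiq Φ B hB hram 𝔫 hlev T₀ n n₀ m hexp c hc _ ⟨w, rfl⟩ hout φ f hgood
  | S w =>
    exact hS h3 hiq Φ B hB hram 𝔫 hlev T₀ n n₀ m hexp c hc _ ⟨w, Or.inl rfl⟩ hout φ f hgood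
  | Sinv w =>
    exact hS h3 hiq Φ B hB hram 𝔫 hlev T₀ n n₀ m hexp c hc _ ⟨w, Or.inr rfl⟩ hout φ f hgood
  | M w d =>
    exact hM h3 hiq Φ B hB hram 𝔫 hlev T₀ n n₀ m hexp c hc _ ⟨w, d, rfl⟩ hout φ f hgood

/-- **THE TOP OF THE THIRD CUT over `ℚ`**: the node `CQ801.PairAQC801` from the base and the
three steps. -/
theorem pairAQC_of484 (hB : BaseAQC484 P F) (hT : StepTQC484 F) (hS : StepSQC484 F)
    (hM : StepMQC484 F) : CQ801.PairAQC801 P F := by
  classical
  intro h3 hiq Φ hΦ hconst hP B hB' hram 𝔫 hlev T₀ n n₀ m hexp c hc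
  obtain ⟨c₁, φ, f, hgood, hop, hne, hstab⟩ :=
    hB h3 hiq Φ hΦ hconst hP B hB' hram 𝔫 hlev T₀ n n₀ m hexp c hc
  have hstep := stepAllQ_of484 hT hS hM h3 hiq Φ B hB' hram 𝔫 hlev T₀ n n₀ m hexp c hc
  -- the step as a function (junk when the hypotheses fail)
  let stepFn : Gen F → (G F → ℂ) × (QWt → G ℚ → ℂ) → (G F → ℂ) × (QWt → G ℚ → ℂ) :=
    fun x p =>
      if h : x.Out (toBase962_732 B).S' ∧
          IsGoodAQ484 (toBase962_732 B) 𝔫 c T₀ n m p.1 p.2 then
        Classical.choose (hstep x trivial h.1 p.1 p.2 h.2)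
      else p
  let W : List (Gen F) → (G F → ℂ) × (QWt → G ℚ → ℂ) := fun X => X.foldr stepFn (φ, f)
  have hWc : ∀ (x : Gen F) (X : List (Gen F)), W (x :: X) = stepFn x (W X) := fun _ _ => rfl
  have key : ∀ X : List (Gen F), (∀ x ∈ X, x.Out (toBase962_732 B).S') →
      IsGoodAQ484 (toBase962_732 B) 𝔫 c T₀ n m (W X).1 (W X).2 ∧
      (∀ (χ : G F → ℂ) (C : EigData F),
        IsEigFn (toBase962_732 B).𝔑₀ (toBase962_732 B).R'.r 2 (toBase962_732 B).o χ C →
        ∀ y : G F, T5.Rconv (toBase962_732 B).R'.μ (W X).1 χ y = wordEv X C * c₁ C * χ y) ∧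
      (∀ (t : QWt) (χ : G ℚ → ℂ) (c' : EigData ℚ) (C : EigData F),
        IsEigFnQ t 𝔫 (toBase962_732 B).R.r (toBase962_732 B).u χ c' →
        IsBCDataQ t c' C (toBase962_732 B).S →
        ∀ y : G ℚ, T5.Rconv (toBase962_732 B).R.μ ((W X).2 t) χ y
          = wordEv X C * T5.Rconv (toBase962_732 B).R.μ (f t) χ y) := by
    intro X
    induction X with
    | nil =>
      intro _
      refine ⟨hgood, fun χ C hχ y => ?_, fun t χ c' C _ _ y => ?_⟩
      · rw [wordEv_nil484, one_mul]
        exact hop χ C hχ y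
      · rw [wordEv_nil484, one_mul]
        rfl
    | cons x X ih =>
      intro hX
      have hx : x.Out (toBase962_732 B).S' := hX x List.mem_cons_self
      obtain ⟨ig, iu, id⟩ := ih fun y hy => hX y (List.mem_cons_of_mem _ hy)
      have hcond : x.Out (toBase962_732 B).S' ∧
          IsGoodAQ484 (toBase962_732 B) 𝔫 c T₀ n m (W X).1 (W X).2 := ⟨hx, ig⟩
      have hspec := Classical.choose_spec (hstep x trivial hx (W X).1 (W X).2 ig)
      have hWeq : W (x :: X) = Classical.choose (hstep x trivial hx (W X).1 (W X).2 ig) := by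
        rw [hWc]
        show (if h : x.Out (toBase962_732 B).S' ∧
            IsGoodAQ484 (toBase962_732 B) 𝔫 c T₀ n m (W X).1 (W X).2 then
          Classical.choose (hstep x trivial h.1 (W X).1 (W X).2 h.2) else W X) = _
        rw [dif_pos hcond]
      rw [hWeq]
      refine ⟨hspec.1, fun χ C hχ y => ?_, fun t χ c' C hχ hC y => ?_⟩
      · rw [hspec.2.up χ C hχ y, iu χ C hχ y, wordEv_cons484]
        ring
      · rw [hspec.2.dn t χ c' C hχ hC y, id t χ c' C hχ hC y, wordEv_cons484]
        ring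
  refine ⟨c₁, fun X => (W X).1, fun t X => (W X).2 t, ?_⟩
  exact
    { up1_test := fun X hX => (key X hX).1.up_test
      up1_ek := fun X hX => (key X hX).1.up_ek
      up1_op := fun X hX χ C hχ y => (key X hX).2.1 χ C hχ y
      up1_ne := hne
      dn1_test := fun t X hX => (key X hX).1.dn_test t
      dn1_ek := fun t X hX => (key X hX).1.dn_ek t
      dn1_op := fun t X hX χ c' C hχ hC y => (key X hX).2.2 t χ c' C hχ hC y
      dn1_wfn := hstab.wfn
      dn1_class := hstab.cls
      dn1_comm := hstab.comm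
      up1_supp := fun X hX => (key X hX).1.up_supp
      dn1_supp := fun t X hX => (key X hX).1.dn_supp t
      shape := fun X hX => (key X hX).1.shape }

end Fermat.Agent.LT.T7.PQ484

end
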