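import Mathlib
import Fermat.Agent.LT.T7.H484.PairAQTop
import Fermat.Agent.LT.T7.H801.PairAQBridge

/-!
# Row LT, tower T7, node T7.L2Q.1.H2a.A `CQ801.PairAQC801` (registry row 2855): THE THREE CUTS
# ARE ONE -- bridge between the cut of helper484 (`T7/H484/PairAQSpec.lean`, registry rows
# 2954-2957) and the cuts of record of helper801 (`T7/H801/PairAQCutSpec.lean`) and helper327
# (`T7/AQ327/PairAQSpec.lean`)

OFF-MAIN.  PROVED, no hole, nothing assumed.  ADDITIVE (new names only, suffix `484`).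
Ruling of the architect helper801 (note 19045): ONE set of leaves, the forms of record are
`CQ801.BaseAQC801`, `AQ327.StepTQC327 = CQ801.StepTQC801`, `AQ327.StepSQC327 = CQ801.StepSQC801`.
The nodes registered under the names of helper484 are THE SAME statements:

    stepGQC_iff484  : PQ484.StepGQC484 F Q ↔ CQ801.StepGQC801 F Q
    stepTQC_iff484  : PQ484.StepTQC484 F ↔ AQ327.StepTQC327 F        (row 2955)
    stepSQC_iff484  : PQ484.StepSQC484 F ↔ AQ327.StepSQC327 F        (row 2956)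
    stepMQC_iff484  : PQ484.StepMQC484 F ↔ AQ327.StepMQC327 F        (row 2957, HEDGE)
    baseAQC_iff484  : PQ484.BaseAQC484 P F ↔ AQ327.BaseAQC327 P F    (row 2954, empty word)
    baseAQC484_of801 : CQ801.BaseAQC801 P F → PQ484.BaseAQC484 P F
    pairAQC_of_either484 :
        (CQ801.BaseAQC801 P F ∨ (PQ484.BaseAQC484 P F ∧ PQ484.StepMQC484 F))
          → PQ484.StepTQC484 F → PQ484.StepSQC484 F → CQ801.PairAQC801 P F

so every proof of a leaf under one name serves all cuts.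
-/

set_option autoImplicit false

open AutomorphicForm IsDedekindDomain NumberField MeasureTheory
open scoped ComplexConjugate

noncomputable section

namespace Fermat.Agent.LT.T7.PQ484

open Fermat.Agent.LT.H556 Fermat.Agent.LT.H556.A0 Fermat.Agent.LT.T7 Fermat.Agent.LT.T7.H305
  Fermat.Agent.LT.T7.L2Q Fermat.Agent.LT.T7.H893 Fermat.Agent.LT.T7.H962
  Fermat.Agent.LT.T7.H732 Fermat.Agent.LT.T7.MQ298 Fermat.Agent.LT.T7.CQ801

attribute [local instance] Fermat.Agent.LT.T5.instMeasurableSpaceG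

variable {P : EKCond}
variable {F : Type} [Field F] [NumberField F]

theorem isGoodAQ_iff484 {B : L2QBase962 F} {𝔫 : Ideal (𝓞 ℚ)} {c : ℂ}
    {T₀ : Finset (HeightOneSpectrum (𝓞 ℚ))}
    {n : HeightOneSpectrum (𝓞 F) → ℕ} {m : HeightOneSpectrum (𝓞 ℚ) → ℕ}
    {φ : G F → ℂ} {f : QWt → G ℚ → ℂ} :
    IsGoodAQ484 B 𝔫 c T₀ n m φ f ↔ CQ801.IsGoodAQ801 B 𝔫 c T₀ n m φ f :=
  ⟨fun h => ⟨h.up_test, h.up_ek, h.dn_test, h.dn_ek, h.up_supp, h.dn_supp, h.shape⟩,
    fun h => ⟨h.up_test, h.up_ek, h.dn_test, h.dn_ek, h.up_supp, h.dn_supp, h.shape⟩⟩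

theorem isStepAQ_iff484 {B : L2QBase962 F} {𝔫 : Ideal (𝓞 ℚ)} {x : Gen F}
    {φ : G F → ℂ} {f : QWt → G ℚ → ℂ} {φ' : G F → ℂ} {f' : QWt → G ℚ → ℂ} :
    IsStepAQ484 B 𝔫 x φ f φ' f' ↔ CQ801.IsStepAQ801 B 𝔫 x φ f φ' f' :=
  ⟨fun h => ⟨h.up, h.dn⟩, fun h => ⟨h.up, h.dn⟩⟩

theorem isDnStabQ_iff484 {B : L2QBase962 F} {𝔫 : Ideal (𝓞 ℚ)} {f : QWt → G ℚ → ℂ} :
    IsDnStabQ484 B 𝔫 f ↔ CQ801.IsDnStabQ801 B 𝔫 f :=
  ⟨fun h => ⟨h.wfn, h.cls, h.comm⟩, fun h => ⟨h.wfn, h.cls, h.comm⟩⟩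

variable (F)

/-- The generic step nodes agree (helper484 / helper801). -/
theorem stepGQC_iff484 (Q : Gen F → Prop) : StepGQC484 F Q ↔ CQ801.StepGQC801 F Q := by
  constructor
  · intro h h3 hquad Φ B hB hram 𝔫 hlev T₀ n n₀ m hexp c hc x hx hout φ f hgood
    obtain ⟨p, hp1, hp2⟩ := h h3 hquad Φ B hB hram 𝔫 hlev T₀ n n₀ m hexp c hc x hx hout φ f
      (isGoodAQ_iff484.2 hgood)
    exact ⟨p, isGoodAQ_iff484.1 hp1, isStepAQ_iff484.1 hp2⟩
  · intro h h3 hquad Φ B hB hram 𝔫 hlev T₀ n n₀ m hexp c hc x hx hout φ f hgood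
    obtain ⟨p, hp1, hp2⟩ := h h3 hquad Φ B hB hram 𝔫 hlev T₀ n n₀ m hexp c hc x hx hout φ f
      (isGoodAQ_iff484.1 hgood)
    exact ⟨p, isGoodAQ_iff484.2 hp1, isStepAQ_iff484.2 hp2⟩

/-- The generic step nodes agree (helper484 / helper327). -/
theorem stepGQC_iff327_484 (Q : Gen F → Prop) : StepGQC484 F Q ↔ AQ327.StepGQC327 F Q :=
  (stepGQC_iff484 F Q).trans (CQ801.stepGQC_iff801 F Q)

/-- STEP-T (registry row 2955) = the form of record. -/
theorem stepTQC_iff484 : StepTQC484 F ↔ AQ327.StepTQC327 F :=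
  stepGQC_iff327_484 F _

/-- STEP-T (registry row 2955) = the node of helper801. -/
theorem stepTQC_iff801_484 : StepTQC484 F ↔ CQ801.StepTQC801 F :=
  stepGQC_iff484 F _

/-- STEP-S (registry row 2956) = the form of record. -/
theorem stepSQC_iff484 : StepSQC484 F ↔ AQ327.StepSQC327 F :=
  stepGQC_iff327_484 F _

/-- STEP-S (registry row 2956) = the node of helper801. -/
theorem stepSQC_iff801_484 : StepSQC484 F ↔ CQ801.StepSQC801 F :=
  stepGQC_iff484 F _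

/-- STEP-M (registry row 2957, HEDGE) = the node of helper327. -/
theorem stepMQC_iff484 : StepMQC484 F ↔ AQ327.StepMQC327 F :=
  stepGQC_iff327_484 F _

variable {F}

/-- The base for the empty word (registry row 2954) = the node of helper327. -/
theorem baseAQC_iff484 : BaseAQC484 P F ↔ AQ327.BaseAQC327 P F := by
  constructor
  · intro h h3 hquad Φ hΦ hconst hP B hB hram 𝔫 hlev T₀ n n₀ m hexp c hc
    obtain ⟨c₁, φ, f, hgood, hop, hne, hstab⟩ :=
      h h3 hquad Φ hΦ hconst hP B hB hram 𝔫 hlev T₀ n n₀ m hexp c hc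
    exact ⟨c₁, φ, f, CQ801.isGoodAQ_iff801.1 (isGoodAQ_iff484.1 hgood), hop, hne,
      CQ801.isDnStabQ_iff801.1 (isDnStabQ_iff484.1 hstab)⟩
  · intro h h3 hquad Φ hΦ hconst hP B hB hram 𝔫 hlev T₀ n n₀ m hexp c hc
    obtain ⟨c₁, φ, f, hgood, hop, hne, hstab⟩ :=
      h h3 hquad Φ hΦ hconst hP B hB hram 𝔫 hlev T₀ n n₀ m hexp c hc
    exact ⟨c₁, φ, f, isGoodAQ_iff484.2 (CQ801.isGoodAQ_iff801.2 hgood), hop, hne,
      isDnStabQ_iff484.2 (CQ801.isDnStabQ_iff801.2 hstab)⟩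

/-- The base for the words of sphere means (node of record of helper801) gives the base for the
empty word (registry row 2954). -/
theorem baseAQC484_of801 (h : CQ801.BaseAQC801 P F) : BaseAQC484 P F :=
  baseAQC_iff484.2 (CQ801.baseAQC327_of801 h)

/-- **THE NODE `PairAQC801` FROM EITHER CUT, in the names of the registry rows 2954-2957.** -/
theorem pairAQC_of_either484
    (hB : CQ801.BaseAQC801 P F ∨ (BaseAQC484 P F ∧ StepMQC484 F))
    (hT : StepTQC484 F) (hS : StepSQC484 F) : CQ801.PairAQC801 P F := by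
  refine CQ801.pairAQC_of_either801 ?_ ((stepTQC_iff484 F).1 hT) ((stepSQC_iff484 F).1 hS)
  rcases hB with h | ⟨h1, h2⟩
  · exact Or.inl h
  · exact Or.inr ⟨baseAQC_iff484.1 h1, (stepMQC_iff484 F).1 h2⟩

end Fermat.Agent.LT.T7.PQ484

end
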