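import Mathlib
import Fermat.Agent.LT.T7.H216.PairAQOpen
import Fermat.Agent.LT.T7.H87.BaseAQ801Top
import Fermat.Agent.LT.T7.DQ773.DatQClosed
import Fermat.Agent.LT.T7.H409.UpGoodQ
import Fermat.Agent.LT.T7.H801.DnGoodQ
import Fermat.Agent.LT.T7.H283.IwSupp
import Fermat.Agent.LT.T7.H919.DnStabQ
import Fermat.Agent.LT.T7.H20.ShapeQ

/-!
# Row LT, tower T7, node T7.L2Q.1.H2a.A `CQ801.PairAQC801` (first pair over `ℚ`, registry row
# 2855): INTEGRATION by the owner helper484 -- OPEN FORM (one hypothesis)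

OFF-MAIN.  Complete proofs, nothing assumed.  ADDITIVE (new names only, suffix `484`).

    baseAQC801_of_stepMDat484 : BQ87.StepMDatQC87 F → CQ801.BaseAQC801 T7.ekMulti F
    pairAQC_of_stepMDat484    : BQ87.StepMDatQC87 F → CQ801.PairAQC801 T7.ekMulti F

Plugged (proofs of record, byte-identical copies, ONE closure):

| node | owner | theorem |
|---|---|---|
| `BQ87.DatQC87 F` | helper773@d54b0df02 | `DQ773.datQC_closed773` |
| `BQ87.UpGoodQC87 F` | helper409@3f094f941 | `H409.upGoodQC409` |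
| `BQ87.DnGoodQC87 F` | helper801@d7c25c57e | `DG801.dnGoodQC801` |
| `BQ87.IwSuppC87 K` | helper283@09d23fbc0 | `H283.iwSuppC283` |
| `BQ87.DnStabQC87 F` | helper919@b23946962 | `DSQ919.dnStabQC919` |
| `BQ87.ShapeQC87 F` | helper20@9570adcf5 | `H20.shapeQC20` |
| top of `BaseAQC801` | helper87@214c6c402 | `BQ87.baseAQC801_of87` |
| `StepTQC484`, `StepSQC484`, top of `PairAQC801` | helper216@2a4fd6e99 | `TQ216.pairAQC_of_base216` |

OPEN: `BQ87.StepMDatQC87 F` (registry row 3188; cut of record helper640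
`T7/SM640/StepMDatSpec.lean`; spare cut helper484 `T7/H484/StepMDatSpec.lean`).
-/

set_option autoImplicit false

open AutomorphicForm IsDedekindDomain NumberField MeasureTheory

noncomputable section

namespace Fermat.Agent.LT.T7.PQ484

open Fermat.Agent.LT Fermat.Agent.LT.T7

/-- **The base of the first pair over `ℚ` for the words of sphere means**, from the step
`M_{w,d}` on the data. -/
theorem baseAQC801_of_stepMDat484 (F : Type) [Field F] [NumberField F]
    (hM : BQ87.StepMDatQC87 F) : CQ801.BaseAQC801 T7.ekMulti F :=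
  BQ87.baseAQC801_of87 (DQ773.datQC_closed773 F) hM (H409.upGoodQC409 F)
    (DG801.dnGoodQC801 F) (H283.iwSuppC283 F) (H283.iwSuppC283 ℚ) (DSQ919.dnStabQC919 F)
    (H20.shapeQC20 F)

/-- **THE FIRST PAIR over `ℚ`** (registry row 2855), from the step `M_{w,d}` on the data. -/
theorem pairAQC_of_stepMDat484 (F : Type) [Field F] [NumberField F]
    (hM : BQ87.StepMDatQC87 F) : CQ801.PairAQC801 T7.ekMulti F :=
  TQ216.pairAQC_of_base216 T7.ekMulti F (baseAQC801_of_stepMDat484 F hM)

end Fermat.Agent.LT.T7.PQ484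

end
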